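/-
S26 / block T, node CRIT (Mathlib only): the differential criterion for formally etale maps.
-/
import Mathlib

set_option autoImplicit false

universe u

namespace Fermat.Agent.S26.T

open scoped TensorProduct

/-- **CRIT.** `K → P → S`, `S` formally smooth over `K`, and `S ⊗[P] Ω[P⁄K] → Ω[S⁄K]` bijective.
Then `S` is formally etale over `P`. -/
theorem formallyEtale_of_bijective_mapBaseChange {K P S : Type u} [CommRing K] [CommRing P]
    [CommRing S] [Algebra K P] [Algebra K S] [Algebra P S] [IsScalarTower K P S]
    [Algebra.FormallySmooth K S]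
    (h : Function.Bijective (KaehlerDifferential.mapBaseChange K P S)) :
    Algebra.FormallyEtale P S := by
  refine ⟨?_, ?_⟩
  · -- `Ω[S⁄P] = 0`
    refine ⟨fun a b => ?_⟩
    have key : ∀ x : Ω[S⁄P], x = 0 := by
      intro x
      obtain ⟨y, rfl⟩ := KaehlerDifferential.map_surjective K P S x
      obtain ⟨z, rfl⟩ := h.2 y
      exact (KaehlerDifferential.exact_mapBaseChange_map K P S _).2 ⟨z, rfl⟩
    rw [key a, key b]
  · -- `H¹(L_{S/P}) = 0`
    refine ⟨fun a b => ?_⟩
    have key : ∀ x : Algebra.H1Cotangent P S, x = 0 := by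
      intro x
      have h1 : Algebra.H1Cotangent.δ K P S x = 0 := by
        apply h.1
        rw [map_zero]
        exact (Algebra.H1Cotangent.exact_δ_mapBaseChange K P S _).2 ⟨x, rfl⟩
      obtain ⟨y, rfl⟩ := (Algebra.H1Cotangent.exact_map_δ K P S x).1 h1
      rw [Subsingleton.elim y 0, map_zero]
    rw [key a, key b]

end Fermat.Agent.S26.T
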